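/-
Programme T1a (S19), brick G-e CHARTAUT (helper9), GENERIC part.

`R → F` a ring map to a field, `σ : R →+* R`, `g : F →+* F` a ring endomorphism of `F` which is
`σ`-semilinear on constants (`g (algebraMap R F r) = algebraMap R F (σ r)`).  Then `g` maps
`R[t]` into `R[g t]`, the chart `chart R t` (integral closure of `R[t]` in `F`) into `chart R (g t)`,
and, for `g t = t`, the three charts `B0 = chart R t`, `B1 = chart R t⁻¹`, `B01 = B0 ⊔ B1` into themselves.

* `SemiOn σ g`                : the hypothesis;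
* `map_mem_adjoin`, `map_mem_chart`, `map_mem_chart_self`, `map_mem_chart_inv`, `map_mem_sup`;
* `resHom S T h : ↥S →+* ↥T` : the restriction of `g` to subalgebras, with `coe_resHom`,
  `resHom_smul` (semilinearity), `resHom_inclusion` (compatibility with inclusions), `resHom_comp`,
  `resHom_id` (functoriality), `resHom_bijective`.
-/
import Mathlib
import Fermat.Agent.RED.PUR.ChartGeneric22

set_option autoImplicit false

namespace Fermat.Agent.T1.ChartAut9.Generic

open Polynomial Fermat.Agent.RED.PUR.ChartGeneric22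

variable {R F : Type*} [CommRing R] [Field F] [Algebra R F]

/-- `g : F →+* F` is `σ`-semilinear on the constants `R`. -/
def SemiOn (σ : R →+* R) (g : F →+* F) : Prop :=
  ∀ r : R, g (algebraMap R F r) = algebraMap R F (σ r)

theorem SemiOn.id : SemiOn (RingHom.id R) (RingHom.id F) := fun _ => rfl

theorem SemiOn.comp {σ σ' : R →+* R} {g g' : F →+* F} (h : SemiOn σ g) (h' : SemiOn σ' g') :
    SemiOn (σ.comp σ') (g.comp g') := fun r => by
  rw [RingHom.comp_apply, h' r, h (σ' r), RingHom.comp_apply]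

variable {σ : R →+* R} {g : F →+* F}

/-- The preimage of a subalgebra under a semilinear ring endomorphism is a subalgebra. -/
def pre (h : SemiOn σ g) (S : Subalgebra R F) : Subalgebra R F where
  carrier := {x | g x ∈ S}
  mul_mem' := fun {a b} ha hb => by
    show g (a * b) ∈ S
    rw [map_mul]
    exact S.mul_mem ha hb
  add_mem' := fun {a b} ha hb => by
    show g (a + b) ∈ S
    rw [map_add]
    exact S.add_mem ha hb
  algebraMap_mem' := fun r => by
    show g (algebraMap R F r) ∈ S
    rw [h r]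
    exact S.algebraMap_mem _

theorem mem_pre (h : SemiOn σ g) (S : Subalgebra R F) (x : F) : x ∈ pre h S ↔ g x ∈ S := Iff.rfl

theorem map_mem_adjoin (h : SemiOn σ g) (t : F) {x : F} (hx : x ∈ Algebra.adjoin R {t}) :
    g x ∈ Algebra.adjoin R {g t} := by
  have hle : Algebra.adjoin R {t} ≤ pre h (Algebra.adjoin R {g t}) := by
    refine Algebra.adjoin_le ?_
    intro y hy
    rw [Set.mem_singleton_iff] at hy
    subst hy
    exact Algebra.self_mem_adjoin_singleton R (g y)
  exact hle hx

/-- `g` maps the chart of `t` into the chart of `g t`. -/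
theorem map_mem_chart (h : SemiOn σ g) (t : F) {x : F} (hx : x ∈ chart R t) :
    g x ∈ chart R (g t) := by
  rw [mem_chart_iff, isIntegral_subalgebra_iff] at hx ⊢
  obtain ⟨P, hP, hcoeff, hPx⟩ := hx
  refine ⟨P.map g, hP.map g, fun i => ?_, ?_⟩
  · rw [coeff_map]
    exact map_mem_adjoin h t (hcoeff i)
  · rw [eval_map, eval₂_hom, hPx, map_zero]

theorem map_mem_chart_self (h : SemiOn σ g) {t : F} (ht : g t = t) {x : F} (hx : x ∈ chart R t) :
    g x ∈ chart R t := by
  have := map_mem_chart h t hx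
  rwa [ht] at this

theorem map_mem_chart_inv (h : SemiOn σ g) {t : F} (ht : g t = t) {x : F}
    (hx : x ∈ chart R t⁻¹) : g x ∈ chart R t⁻¹ := by
  have := map_mem_chart h t⁻¹ hx
  rwa [map_inv₀, ht] at this

theorem map_mem_sup (h : SemiOn σ g) {S S' T T' : Subalgebra R F} (hS : ∀ x ∈ S, g x ∈ T)
    (hS' : ∀ x ∈ S', g x ∈ T') {x : F} (hx : x ∈ S ⊔ S') : g x ∈ T ⊔ T' := by
  have hle : S ⊔ S' ≤ pre h (T ⊔ T') :=
    sup_le (fun y hy => (le_sup_left : T ≤ T ⊔ T') (hS y hy))
      (fun y hy => (le_sup_right : T' ≤ T ⊔ T') (hS' y hy))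
  exact hle hx

/-- `g` preserves the overlap chart `chart R t ⊔ chart R t⁻¹`. -/
theorem map_mem_overlap (h : SemiOn σ g) {t : F} (ht : g t = t) {x : F}
    (hx : x ∈ chart R t ⊔ chart R t⁻¹) : g x ∈ chart R t ⊔ chart R t⁻¹ :=
  map_mem_sup h (fun _ hy => map_mem_chart_self h ht hy) (fun _ hy => map_mem_chart_inv h ht hy) hx

/-! ### The restricted ring homomorphisms -/

/-- The restriction of `g` to a ring homomorphism between subalgebras. -/
def resHom (g : F →+* F) (S T : Subalgebra R F) (h : ∀ x ∈ S, g x ∈ T) : ↥S →+* ↥T :=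
  (g.comp (S.val : ↥S →+* F)).codRestrict T (fun x => h x x.2)

@[simp]
theorem coe_resHom (g : F →+* F) (S T : Subalgebra R F) (h : ∀ x ∈ S, g x ∈ T) (x : ↥S) :
    ((resHom g S T h x : ↥T) : F) = g (x : F) := rfl

/-- Semilinearity of the restriction. -/
theorem resHom_smul (hg : SemiOn σ g) (S T : Subalgebra R F) (h : ∀ x ∈ S, g x ∈ T) (r : R)
    (x : ↥S) : resHom g S T h (r • x) = σ r • resHom g S T h x := by
  apply Subtype.ext
  rw [coe_resHom, Subalgebra.coe_smul, Subalgebra.coe_smul, coe_resHom, Algebra.smul_def,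
    Algebra.smul_def, map_mul, hg r]

theorem resHom_algebraMap (hg : SemiOn σ g) (S T : Subalgebra R F) (h : ∀ x ∈ S, g x ∈ T) (r : R) :
    resHom g S T h (algebraMap R ↥S r) = algebraMap R ↥T (σ r) := by
  apply Subtype.ext
  rw [coe_resHom]
  exact hg r

/-- Compatibility with inclusions of subalgebras. -/
theorem resHom_inclusion (g : F →+* F) {S S' T T' : Subalgebra R F} (hS : S ≤ S') (hT : T ≤ T')
    (h : ∀ x ∈ S, g x ∈ T) (h' : ∀ x ∈ S', g x ∈ T') (x : ↥S) :
    resHom g S' T' h' (Subalgebra.inclusion hS x) = Subalgebra.inclusion hT (resHom g S T h x) :=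
  Subtype.ext rfl

/-- Functoriality: composition. -/
theorem resHom_comp (g g' : F →+* F) (S T U : Subalgebra R F) (h : ∀ x ∈ T, g x ∈ U)
    (h' : ∀ x ∈ S, g' x ∈ T) :
    resHom (g.comp g') S U (fun x hx => h _ (h' x hx)) = (resHom g T U h).comp (resHom g' S T h') :=
  RingHom.ext fun _ => Subtype.ext rfl

/-- Functoriality: identity. -/
theorem resHom_id (S : Subalgebra R F) :
    resHom (RingHom.id F) S S (fun _ hx => hx) = RingHom.id ↥S :=
  RingHom.ext fun _ => Subtype.ext rfl

theorem resHom_congr {g g' : F →+* F} (hgg : g = g') (S T : Subalgebra R F)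
    (h : ∀ x ∈ S, g x ∈ T) : resHom g S T h = resHom g' S T (fun x hx => hgg ▸ h x hx) := by
  subst hgg
  rfl

theorem resHom_injective (g : F →+* F) (S T : Subalgebra R F) (h : ∀ x ∈ S, g x ∈ T) :
    Function.Injective (resHom g S T h) := by
  intro x y hxy
  have := congrArg (fun z : ↥T => (z : F)) hxy
  exact Subtype.ext (g.injective this)

/-- If `g` has an inverse `g'` which also preserves the subalgebra, the restriction is bijective. -/
theorem resHom_bijective {g g' : F →+* F} (hgg : ∀ x, g (g' x) = x) (S : Subalgebra R F)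
    (h : ∀ x ∈ S, g x ∈ S) (h' : ∀ x ∈ S, g' x ∈ S) : Function.Bijective (resHom g S S h) := by
  refine ⟨resHom_injective g S S h, fun y => ⟨⟨g' y, h' y y.2⟩, ?_⟩⟩
  apply Subtype.ext
  rw [coe_resHom]
  exact hgg y

end Fermat.Agent.T1.ChartAut9.Generic
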