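/-
Programme T1a (S19), brick G-e CHARTAUT (helper9): the CONSTRUCTOR of `RedIface75.ChartAut`.

`R → F` a ring map to a field, `σ : R →+* R`, `g : F →+* F` with `Generic.SemiOn σ g`, three subalgebras
`B0, B1, B01 ⊂ F` preserved by `g`, ANY algebra structures `B0 → B01`, `B1 → B01` which are the inclusions
on underlying elements, and ANY `c0 : TwoChart R B0 B1 B01` whose coordinates are fixed by `g`:
`chartAutOf ... : RedIface75.ChartAut c0`, with `σW = σ` and `σ_j = g|_{B_j}`.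

Functoriality (`chartAutOf_comp_*`, `chartAutOf_id_*`) is stated fieldwise.
-/
import Mathlib
import Fermat.Agent.T1.RedIface75
import Fermat.Agent.T1.ChartAut9.Generic

set_option autoImplicit false

namespace Fermat.Agent.T1.ChartAut9.Build

open Fermat.Agent.Jac Fermat.Agent.T1.RedIface75 Fermat.Agent.T1.ChartAut9.Generic

universe u

variable {R F : Type u} [CommRing R] [Field F] [Algebra R F]
  {B0 B1 B01 : Subalgebra R F}
  [Algebra ↥B0 ↥B01] [Algebra ↥B1 ↥B01] [IsScalarTower R ↥B0 ↥B01] [IsScalarTower R ↥B1 ↥B01]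

/-- The hypotheses on `(σ, g)` relative to a chart system `(B0, B1, B01, c0)`. -/
structure Preserves (σ : R →+* R) (g : F →+* F) (c0 : TwoChart R ↥B0 ↥B1 ↥B01) : Prop where
  semi : SemiOn σ g
  mem0 : ∀ x ∈ B0, g x ∈ B0
  mem1 : ∀ x ∈ B1, g x ∈ B1
  mem01 : ∀ x ∈ B01, g x ∈ B01
  map_t : g (c0.t : F) = c0.t
  map_s : g (c0.s : F) = c0.s

/-- **The constructor.** -/
noncomputable def chartAutOf {σ : R →+* R} {g : F →+* F} {c0 : TwoChart R ↥B0 ↥B1 ↥B01}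
    (hc0 : ∀ b : ↥B0, ((algebraMap ↥B0 ↥B01 b : ↥B01) : F) = (b : F))
    (hc1 : ∀ b : ↥B1, ((algebraMap ↥B1 ↥B01 b : ↥B01) : F) = (b : F))
    (P : Preserves σ g c0) : ChartAut c0 where
  σW := σ
  σ0 := resHom g B0 B0 P.mem0
  σ1 := resHom g B1 B1 P.mem1
  σ01 := resHom g B01 B01 P.mem01
  semi0 := fun w b => resHom_smul P.semi B0 B0 P.mem0 w b
  semi1 := fun w b => resHom_smul P.semi B1 B1 P.mem1 w b
  semi01 := fun w b => resHom_smul P.semi B01 B01 P.mem01 w b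
  comm0 := fun b => by
    apply Subtype.ext
    rw [coe_resHom, hc0, hc0, coe_resHom]
  comm1 := fun b => by
    apply Subtype.ext
    rw [coe_resHom, hc1, hc1, coe_resHom]
  map_t := Subtype.ext P.map_t
  map_s := Subtype.ext P.map_s

section Fields

variable {σ : R →+* R} {g : F →+* F} {c0 : TwoChart R ↥B0 ↥B1 ↥B01}
  (hc0 : ∀ b : ↥B0, ((algebraMap ↥B0 ↥B01 b : ↥B01) : F) = (b : F))
  (hc1 : ∀ b : ↥B1, ((algebraMap ↥B1 ↥B01 b : ↥B01) : F) = (b : F))
  (P : Preserves σ g c0)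

@[simp] theorem chartAutOf_σW : (chartAutOf hc0 hc1 P).σW = σ := rfl

@[simp] theorem coe_chartAutOf_σ0 (b : ↥B0) : (((chartAutOf hc0 hc1 P).σ0 b : ↥B0) : F) = g b := rfl

@[simp] theorem coe_chartAutOf_σ1 (b : ↥B1) : (((chartAutOf hc0 hc1 P).σ1 b : ↥B1) : F) = g b := rfl

@[simp] theorem coe_chartAutOf_σ01 (b : ↥B01) :
    (((chartAutOf hc0 hc1 P).σ01 b : ↥B01) : F) = g b := rfl

end Fields

/-! ### Functoriality -/

theorem Preserves.id (c0 : TwoChart R ↥B0 ↥B1 ↥B01) :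
    Preserves (RingHom.id R) (RingHom.id F) c0 :=
  ⟨SemiOn.id, fun _ h => h, fun _ h => h, fun _ h => h, rfl, rfl⟩

theorem Preserves.comp {σ σ' : R →+* R} {g g' : F →+* F} {c0 : TwoChart R ↥B0 ↥B1 ↥B01}
    (P : Preserves σ g c0) (P' : Preserves σ' g' c0) : Preserves (σ.comp σ') (g.comp g') c0 :=
  ⟨P.semi.comp P'.semi, fun x h => P.mem0 _ (P'.mem0 x h), fun x h => P.mem1 _ (P'.mem1 x h),
    fun x h => P.mem01 _ (P'.mem01 x h),
    by rw [RingHom.comp_apply, P'.map_t, P.map_t], by rw [RingHom.comp_apply, P'.map_s, P.map_s]⟩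

section Functorial

variable {c0 : TwoChart R ↥B0 ↥B1 ↥B01}
  (hc0 : ∀ b : ↥B0, ((algebraMap ↥B0 ↥B01 b : ↥B01) : F) = (b : F))
  (hc1 : ∀ b : ↥B1, ((algebraMap ↥B1 ↥B01 b : ↥B01) : F) = (b : F))

theorem chartAutOf_id_σ0 : (chartAutOf hc0 hc1 (Preserves.id c0)).σ0 = RingHom.id ↥B0 :=
  RingHom.ext fun _ => Subtype.ext rfl

theorem chartAutOf_id_σ1 : (chartAutOf hc0 hc1 (Preserves.id c0)).σ1 = RingHom.id ↥B1 :=
  RingHom.ext fun _ => Subtype.ext rfl

theorem chartAutOf_id_σ01 : (chartAutOf hc0 hc1 (Preserves.id c0)).σ01 = RingHom.id ↥B01 :=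
  RingHom.ext fun _ => Subtype.ext rfl

variable {σ σ' : R →+* R} {g g' : F →+* F} (P : Preserves σ g c0) (P' : Preserves σ' g' c0)

theorem chartAutOf_comp_σ0 : (chartAutOf hc0 hc1 (P.comp P')).σ0 =
    (chartAutOf hc0 hc1 P).σ0.comp (chartAutOf hc0 hc1 P').σ0 :=
  RingHom.ext fun _ => Subtype.ext rfl

theorem chartAutOf_comp_σ1 : (chartAutOf hc0 hc1 (P.comp P')).σ1 =
    (chartAutOf hc0 hc1 P).σ1.comp (chartAutOf hc0 hc1 P').σ1 :=
  RingHom.ext fun _ => Subtype.ext rfl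

theorem chartAutOf_comp_σ01 : (chartAutOf hc0 hc1 (P.comp P')).σ01 =
    (chartAutOf hc0 hc1 P).σ01.comp (chartAutOf hc0 hc1 P').σ01 :=
  RingHom.ext fun _ => Subtype.ext rfl

end Functorial

end Fermat.Agent.T1.ChartAut9.Build
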