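/-
Programme T1a (S19), brick G-e CHARTAUT (helper9), CONCRETE part.

* Generic in the field of constants `Kt` (any `ℚ`-field), `O : ValuationSubring Kt`,
  `E = laurentBaseChange Kt F₀ ⊂ Kt((q))`, `σ : Kt ≃ₐ[ℚ] Kt` with `σ O ⊆ O`:
  - `sigmaO O σ hσ : ↥O →+* ↥O`, the restriction of `σ`;
  - `arithHom F₀ σ : ↥E →+* ↥E`, the coefficientwise action (`arithmeticRingAut`);
  - `semiOn_arith : Generic.SemiOn (sigmaO O σ hσ) (arithHom F₀ σ)`;
  - `arithHom_fix_of_coeffMap` : an element whose series is fixed by `coeffMap σ` (e.g. the eta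
    quotient `tq Kt n e`, `arithHom_tq`) is fixed by `arithHom`;
  - `arith_mem_chart`, `arith_mem_chart_inv`, `arith_mem_overlap` : the three charts of `t` are preserved;
  - functoriality `arithHom_one`, `arithHom_mul`, `sigmaO_one`, `sigmaO_mul`.
* For `Kt = K ⊂ ℚ̄` normal over `ℚ`, `O = AK A K`, `τ ∈ Gal(ℚ̄/ℚ)` in the decomposition group of `A`:
  `restrict_mem_AK` : `τ|_K` preserves `AK A K`; `restrictNormal_one/mul`.
-/
import Mathlib
import Fermat.Agent.RED.Interface4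
import Fermat.Agent.RED.BASE.EtaQuot12
import Fermat.Agent.T1.ChartAut9.Generic
import Fermat.Prelude.Def_ModularCurve_ArithmeticGalois

set_option autoImplicit false

noncomputable section

namespace Fermat.Agent.T1.ChartAut9.Concrete

open HahnSeries AlgebraicCurve ModularCurve
open scoped Pointwise
open Fermat.Agent.RED.PUR.ChartGeneric22 Fermat.Agent.T1.ChartAut9.Generic
open Fermat.Agent.RED.BASE.EtaQuot12

section GenericField

variable {Kt : Type*} [Field Kt] [Algebra ℚ Kt] (O : ValuationSubring Kt)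
  (F₀ : IntermediateField ℚ (LaurentSeries ℚ))

/-- The restriction of `σ` to the valuation ring `O` (for `σ O ⊆ O`). -/
def sigmaO (σ : Kt ≃ₐ[ℚ] Kt) (hσ : ∀ x ∈ O, σ x ∈ O) : ↥O →+* ↥O :=
  ((σ : Kt →+* Kt).comp O.subtype).codRestrict O (fun x => hσ x x.2)

@[simp]
theorem coe_sigmaO (σ : Kt ≃ₐ[ℚ] Kt) (hσ : ∀ x ∈ O, σ x ∈ O) (x : ↥O) :
    ((sigmaO O σ hσ x : ↥O) : Kt) = σ (x : Kt) := rfl

theorem sigmaO_one (h : ∀ x ∈ O, (1 : Kt ≃ₐ[ℚ] Kt) x ∈ O) : sigmaO O 1 h = RingHom.id ↥O :=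
  RingHom.ext fun _ => Subtype.ext rfl

theorem sigmaO_mul (σ σ' : Kt ≃ₐ[ℚ] Kt) (hσ : ∀ x ∈ O, σ x ∈ O) (hσ' : ∀ x ∈ O, σ' x ∈ O)
    (h : ∀ x ∈ O, (σ * σ') x ∈ O) :
    sigmaO O (σ * σ') h = (sigmaO O σ hσ).comp (sigmaO O σ' hσ') :=
  RingHom.ext fun _ => Subtype.ext rfl

/-- The coefficientwise action of `σ` on `E = Kt·F₀`, as a ring endomorphism. -/
def arithHom (σ : Kt ≃ₐ[ℚ] Kt) :
    ↥(laurentBaseChange Kt F₀) →+* ↥(laurentBaseChange Kt F₀) :=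
  (arithmeticRingAut F₀ σ).toRingHom

@[simp]
theorem coe_arithHom (σ : Kt ≃ₐ[ℚ] Kt) (x : ↥(laurentBaseChange Kt F₀)) :
    ((arithHom F₀ σ x : ↥(laurentBaseChange Kt F₀)) : LaurentSeries Kt) =
      coeffMap (σ : Kt →+* Kt) (x : LaurentSeries Kt) := rfl

theorem arithHom_one : arithHom (Kt := Kt) F₀ 1 = RingHom.id _ := by
  refine RingHom.ext fun x => Subtype.ext ?_
  rw [coe_arithHom]
  rw [show ((1 : Kt ≃ₐ[ℚ] Kt) : Kt →+* Kt) = RingHom.id Kt from RingHom.ext fun _ => rfl,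
    coeffMap_id]
  rfl

theorem arithHom_mul (σ σ' : Kt ≃ₐ[ℚ] Kt) :
    arithHom F₀ (σ * σ') = (arithHom F₀ σ).comp (arithHom F₀ σ') := by
  refine RingHom.ext fun x => Subtype.ext ?_
  rw [RingHom.comp_apply, coe_arithHom, coe_arithHom, coe_arithHom, coeffMap_coeffMap]
  exact coeffMap_congr (RingHom.ext fun _ => rfl) _

theorem arithHom_symm_apply (σ : Kt ≃ₐ[ℚ] Kt) (x : ↥(laurentBaseChange Kt F₀)) :
    arithHom F₀ σ (arithHom F₀ σ.symm x) = x :=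
  (arithmeticRingAut F₀ σ).apply_symm_apply x

/-- The coefficientwise action is semilinear over `σ|_O`. -/
theorem semiOn_arith (σ : Kt ≃ₐ[ℚ] Kt) (hσ : ∀ x ∈ O, σ x ∈ O) :
    SemiOn (R := ↥O) (F := ↥(laurentBaseChange Kt F₀)) (sigmaO O σ hσ) (arithHom F₀ σ) := by
  intro r
  exact arithmeticRingAut_algebraMap F₀ σ (r : Kt)

/-- An element whose series is fixed coefficientwise is fixed by `arithHom`. -/
theorem arithHom_fix_of_coeffMap (σ : Kt ≃ₐ[ℚ] Kt) (t : ↥(laurentBaseChange Kt F₀))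
    (ht : coeffMap (σ : Kt →+* Kt) (t : LaurentSeries Kt) = (t : LaurentSeries Kt)) :
    arithHom F₀ σ t = t :=
  Subtype.ext ht

/-- The eta quotient `t = tq Kt n e` is fixed. -/
theorem arithHom_tq (σ : Kt ≃ₐ[ℚ] Kt) (n e : ℕ) [NeZero n]
    (ht : tq Kt n e ∈ laurentBaseChange Kt F₀) :
    arithHom F₀ σ ⟨tq Kt n e, ht⟩ = ⟨tq Kt n e, ht⟩ :=
  arithHom_fix_of_coeffMap F₀ σ _ (coeffMap_tq Kt (σ : Kt →+* Kt) n e)

variable {O F₀}

theorem arith_mem_chart {σ : Kt ≃ₐ[ℚ] Kt} (hσ : ∀ x ∈ O, σ x ∈ O)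
    {t : ↥(laurentBaseChange Kt F₀)} (ht : arithHom F₀ σ t = t)
    {x : ↥(laurentBaseChange Kt F₀)} (hx : x ∈ chart ↥O t) : arithHom F₀ σ x ∈ chart ↥O t :=
  map_mem_chart_self (semiOn_arith O F₀ σ hσ) ht hx

theorem arith_mem_chart_inv {σ : Kt ≃ₐ[ℚ] Kt} (hσ : ∀ x ∈ O, σ x ∈ O)
    {t : ↥(laurentBaseChange Kt F₀)} (ht : arithHom F₀ σ t = t)
    {x : ↥(laurentBaseChange Kt F₀)} (hx : x ∈ chart ↥O t⁻¹) : arithHom F₀ σ x ∈ chart ↥O t⁻¹ :=
  map_mem_chart_inv (semiOn_arith O F₀ σ hσ) ht hx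

theorem arith_mem_overlap {σ : Kt ≃ₐ[ℚ] Kt} (hσ : ∀ x ∈ O, σ x ∈ O)
    {t : ↥(laurentBaseChange Kt F₀)} (ht : arithHom F₀ σ t = t)
    {x : ↥(laurentBaseChange Kt F₀)} (hx : x ∈ chart ↥O t ⊔ chart ↥O t⁻¹) :
    arithHom F₀ σ x ∈ chart ↥O t ⊔ chart ↥O t⁻¹ :=
  map_mem_overlap (semiOn_arith O F₀ σ hσ) ht hx

end GenericField

/-! ### The decomposition group of `A ⊂ ℚ̄` acting on `A ∩ K` -/

section Decomp

open Fermat.Agent.RED.Interface4

variable (A : ValuationSubring Qbar) (K : IntermediateField ℚ Qbar) [Normal ℚ K]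

/-- `τ A ⊆ A` for `τ` in the decomposition group of `A`. -/
theorem map_mem_of_mem_decomposition {τ : Qbar ≃ₐ[ℚ] Qbar}
    (hτ : τ ∈ A.decompositionSubgroup ℚ) {x : Qbar} (hx : x ∈ A) : τ x ∈ A := by
  have h1 : τ • A = A := MulAction.mem_stabilizer_iff.1 hτ
  have h2 : τ • x ∈ τ • A := ValuationSubring.smul_mem_pointwise_smul τ x A hx
  rw [h1] at h2
  exact h2

/-- `τ|_K` preserves `A ∩ K`. -/
theorem restrict_mem_AK {τ : Qbar ≃ₐ[ℚ] Qbar} (hτ : τ ∈ A.decompositionSubgroup ℚ) (x : K)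
    (hx : x ∈ AK A K) : τ.restrictNormal K x ∈ AK A K := by
  show algebraMap K Qbar (τ.restrictNormal K x) ∈ A
  rw [AlgEquiv.restrictNormal_commutes]
  exact map_mem_of_mem_decomposition A hτ hx

theorem restrictNormal_one9 : (1 : Qbar ≃ₐ[ℚ] Qbar).restrictNormal K = 1 :=
  map_one (AlgEquiv.restrictNormalHom (F := ℚ) (K₁ := Qbar) K)

theorem restrictNormal_mul9 (τ τ' : Qbar ≃ₐ[ℚ] Qbar) :
    (τ * τ').restrictNormal K = τ.restrictNormal K * τ'.restrictNormal K :=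
  map_mul (AlgEquiv.restrictNormalHom (F := ℚ) (K₁ := Qbar) K) τ τ'

end Decomp

end Fermat.Agent.T1.ChartAut9.Concrete
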